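/-
MAZ (S15), leaf F-G0, hedge entry (helper13, on helper71's specification): the Prelude's
`ReductionInputsModL A M` **unconditionally at every level `M` with a Hauptmodul base**
(`n ∣ M`, `(n, e) ∈ {(4, 8), (9, 3), …}`, `ℓ ∤ M`, `A ⊂ ℚbar` over `ℓ`), in particular at the
auxiliary level `M = auxLevel ℓ N` for every `N` prime to `ℓ`.

Proof = `ES/TOP/ModelAtFinal8.modelAt` (the two-chart model) + `ES/RED/RedInst15.reductionInputsModL_main`
(the skeleton of `ES/TOP/SPAux8.sp_of_model`).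
-/
import Mathlib
import Fermat.Agent.ES.TOP.ModelAtFinal8
import Fermat.Agent.ES.RED.RedInst15

set_option autoImplicit false
set_option synthInstance.maxHeartbeats 400000
set_option linter.style.haveILetI false

noncomputable section

open AlgebraicCurve ModularCurve IntermediateField

namespace Fermat.Agent.MAZ.G0Aux13

open Fermat.Agent.X0 Fermat.Agent.X0.FF
  Fermat.Agent.RED.Interface4 Fermat.Agent.RED.BASE Fermat.Agent.RED.BASE.Hauptmodul12
  Fermat.Agent.RED.BASE.MainCusp12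
  Fermat.Agent.ES.RED.Contract8 Fermat.Agent.ES.RED.TwoCharts8
  Fermat.Agent.ES.RED.GaloisInst21 Fermat.Agent.ES.RED Fermat.Agent.RED.LVL
  Fermat.Agent.ES.TOP

/-- `ReductionInputsModL A M` at every level `M` carrying a Hauptmodul base `(n, e)`, `n ∣ M`,
`ℓ ∤ M`, `A` over `ℓ`. -/
theorem reductionInputsModL_of_base (ℓ : ℕ) (hℓ : ℓ.Prime)
    (A : ValuationSubring (AlgebraicClosure ℚ)) (hA : A.LiesOverPrime ℓ)
    (n e : ℕ) [NeZero n] (hb : BaseHyp n e) (M : ℕ) [NeZero M] (hnM : n ∣ M) (hℓM : ¬ ℓ ∣ M) :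
    ReductionInputsModL A M := by
  haveI : Fact ℓ.Prime := ⟨hℓ⟩
  obtain ⟨x, hx, T, hS0, hS1, hs0, peel0, peel1⟩ :=
    ModelAtFinal8.modelAt ℓ hℓ A hA n e hb M hnM hℓM
  exact RedInst15.reductionInputsModL_main n e M ℓ hℓM (tMem_of_dvd hb hnM) (tGenBase' hb) A hA T
    hS0 hS1 hs0 peel0 peel1

/-- A place reduction at every level `M` carrying a Hauptmodul base. -/
theorem exists_isPlaceReductionModL_of_base (ℓ : ℕ) (hℓ : ℓ.Prime)
    (A : ValuationSubring (AlgebraicClosure ℚ)) (hA : A.LiesOverPrime ℓ)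
    (n e : ℕ) [NeZero n] (hb : BaseHyp n e) (M : ℕ) [NeZero M] (hnM : n ∣ M) (hℓM : ¬ ℓ ∣ M) :
    ∃ r', IsPlaceReductionModL A M r' :=
  ⟨placeReductionModL (reductionInputsModL_of_base ℓ hℓ A hA n e hb M hnM hℓM),
    isPlaceReductionModL_placeReductionModL _⟩

/-- **`ReductionInputsModL` at the auxiliary level** `auxLevel ℓ N`, `ℓ ∤ N`, `A` over `ℓ`. -/
theorem reductionInputsModL_auxLevel (ℓ N : ℕ) [NeZero N] (hℓ : ℓ.Prime) (hℓN : ¬ ℓ ∣ N)
    (A : ValuationSubring (AlgebraicClosure ℚ)) (hA : A.LiesOverPrime ℓ) :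
    haveI := LevelDegree17.neZero_auxLevel ℓ N
    ReductionInputsModL A (auxLevel ℓ N) := by
  haveI := LevelDegree17.neZero_auxLevel ℓ N
  have hℓM : ¬ ℓ ∣ auxLevel ℓ N := not_dvd_auxLevel hℓ hℓN
  by_cases h2 : ℓ = 2
  · haveI : NeZero 9 := ⟨by norm_num⟩
    exact reductionInputsModL_of_base ℓ hℓ A hA 9 3 baseHyp_nine (auxLevel ℓ N)
      (AuxBase8.nine_dvd_auxLevel N h2) hℓM
  · haveI : NeZero 4 := ⟨by norm_num⟩
    exact reductionInputsModL_of_base ℓ hℓ A hA 4 8 baseHyp_four (auxLevel ℓ N)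
      (AuxBase8.four_dvd_auxLevel N h2) hℓM

/-- A place reduction at the auxiliary level. -/
theorem exists_isPlaceReductionModL_auxLevel (ℓ N : ℕ) [NeZero N] (hℓ : ℓ.Prime) (hℓN : ¬ ℓ ∣ N)
    (A : ValuationSubring (AlgebraicClosure ℚ)) (hA : A.LiesOverPrime ℓ) :
    haveI := LevelDegree17.neZero_auxLevel ℓ N
    ∃ r', IsPlaceReductionModL A (auxLevel ℓ N) r' := by
  haveI := LevelDegree17.neZero_auxLevel ℓ N
  exact ⟨placeReductionModL (reductionInputsModL_auxLevel ℓ N hℓ hℓN A hA),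
    isPlaceReductionModL_placeReductionModL _⟩

end Fermat.Agent.MAZ.G0Aux13
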